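import Fermat.Agent.H55.SS.KTContract
import Fermat.Agent.H47.SS2.LpzTwo

/-!
# P-SS / S35, row 968 (KT-A1 LPZ2): `Fermat.Agent.H55.SS.LPZTwoStatement` (helper27)

Local principalisation with roots of unity at a node (two branches).  The statement of the
contract `Fermat.Agent.H55.SS.KTContract` is the statement `Fermat.Agent.H47.SS2.LPZTwoStatement`
(proved by helper47, `Fermat.Agent.H47.SS2.lpzTwo`, on the LPZ core with `N = 1`, `e₁ = z₂`,
`e₂ = z₁`) with four additional hypotheses, which are not needed.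
-/

set_option autoImplicit false

namespace Fermat.Agent.H27.SS

/-- **KT-A1 (LPZ2)**, row 968. -/
theorem lpzTwoKT : Fermat.Agent.H55.SS.LPZTwoStatement :=
  fun A _ _ _ E₀ _ _ _ hinj ϖ hϖ y hy hfd q hq hqA 𝔪 h𝔪 _ V₁ V₂ z₁ z₂ _ hr₁ hr₂ _
      n hn hnA ζ hζ u p hu₁ hu₂ _ hp =>
    Fermat.Agent.H47.SS2.lpzTwo A E₀ hinj ϖ hϖ y hy hfd q hq hqA 𝔪 h𝔪 V₁ V₂ z₁ z₂ hr₁ hr₂
      n hn hnA ζ hζ u p hu₁ hu₂ hp

end Fermat.Agent.H27.SS
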